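/-
S18lib / Frame / Echelon  (helper2)

Valuation-ring linear algebra: every subspace `U ≤ L^ι` has a basis of `A`-integral vectors whose
reductions mod `𝔪_A` are linearly independent over the residue field ("saturated sublattices of a
finite free module over a valuation ring are free direct summands").
-/
import Fermat.Agent.S18lib.Setup.Orthonormal

set_option autoImplicit false

noncomputable section

namespace Fermat.Agent.S18lib.Frame

open Module

variable {L : Type*} [Field L] (A : ValuationSubring L)

local notation "k" => IsLocalRing.ResidueField A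

theorem exists_integral_basis {ι : Type*} [Fintype ι] :
    ∀ (d : ℕ) (U : Submodule L (ι → L)), finrank L U = d →
      ∃ e : Fin d → ι → A, (∀ j, (fun i => ((e j i : A) : L)) ∈ U) ∧
        LinearIndependent k (fun j => fun i => IsLocalRing.residue A (e j i)) := by
  classical
  intro d
  induction d with
  | zero =>
    intro U _
    exact ⟨fun j => j.elim0, fun j => j.elim0, linearIndependent_empty_type⟩
  | succ d ih =>
    intro U hU
    -- a nonzero vector
    have hUne : U ≠ ⊥ := by
      intro h
      rw [h, finrank_bot] at hU
      exact Nat.succ_ne_zero d hU.symm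
    obtain ⟨x, hxU, hx0⟩ := Submodule.exists_mem_ne_zero_of_ne_bot hUne
    obtain ⟨i₀, hi₀, hmax⟩ := exists_max_coeff A x hx0
    -- normalised vector
    set x' : ι → L := (x i₀)⁻¹ • x with hx'
    have hx'U : x' ∈ U := U.smul_mem _ hxU
    have hx'i : ∀ i, x' i = x i / x i₀ := fun i => by
      simp [hx', div_eq_inv_mul]
    have hx'A : ∀ i, x' i ∈ A := fun i => by rw [hx'i]; exact hmax i
    have hx'1 : x' i₀ = 1 := by rw [hx'i, div_self hi₀]
    -- the hyperplane section
    let φ : U →ₗ[L] L := (LinearMap.proj i₀).comp U.subtype
    have hφsurj : Function.Surjective φ := by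
      intro c
      refine ⟨c • ⟨x', hx'U⟩, ?_⟩
      simp [φ, hx'1]
    have hker : finrank L (LinearMap.ker φ) = d := by
      have h1 := LinearMap.finrank_range_add_finrank_ker φ
      rw [LinearMap.range_eq_top.2 hφsurj, finrank_top, finrank_self, hU] at h1
      omega
    set U'' : Submodule L (ι → L) := (LinearMap.ker φ).map U.subtype with hU''
    have hU''rank : finrank L U'' = d := by
      rw [hU'', Submodule.finrank_map_subtype_eq]; exact hker
    have hU''mem : ∀ z ∈ U'', z ∈ U ∧ z i₀ = 0 := by
      intro z hz
      obtain ⟨w, hw, rfl⟩ := hz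
      exact ⟨w.2, by simpa [φ] using hw⟩
    obtain ⟨e'', he''U, he''ind⟩ := ih U'' hU''rank
    refine ⟨Fin.cons (fun i => ⟨x' i, hx'A i⟩) e'', ?_, ?_⟩
    · intro j
      refine Fin.cases ?_ (fun j' => ?_) j
      · simpa using hx'U
      · simpa using (hU''mem _ (he''U j')).1
    · have hcons : (fun j : Fin (d + 1) => fun i =>
          IsLocalRing.residue A ((Fin.cons (fun i => (⟨x' i, hx'A i⟩ : A)) e'' : Fin (d+1) → ι → A) j i))
          = Fin.cons (fun i => IsLocalRing.residue A (⟨x' i, hx'A i⟩ : A))
              (fun j => fun i => IsLocalRing.residue A (e'' j i)) := by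
        funext j
        refine Fin.cases ?_ (fun j' => ?_) j <;> simp
      rw [hcons, linearIndependent_finCons]
      refine ⟨he''ind, ?_⟩
      intro hmem
      -- every element of the span has zero `i₀`-coordinate
      have hzero : ∀ z ∈ Submodule.span k (Set.range fun j : Fin d => fun i =>
          IsLocalRing.residue A (e'' j i)), z i₀ = 0 := by
        intro z hz
        induction hz using Submodule.span_induction with
        | mem z hz =>
          obtain ⟨j, rfl⟩ := hz
          have h0 : ((e'' j i₀ : A) : L) = 0 := (hU''mem _ (he''U j)).2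
          have : e'' j i₀ = 0 := by ext; exact h0
          simp [this]
        | zero => rfl
        | add z w _ _ hz hw => simp [hz, hw]
        | smul c z _ hz => simp [hz]
      have h1 := hzero _ hmem
      have h2 : (⟨x' i₀, hx'A i₀⟩ : A) = 1 := by ext; exact hx'1
      simp only [h2, map_one] at h1
      exact one_ne_zero h1

end Fermat.Agent.S18lib.Frame
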