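/-
S18lib / Frame / Saturated  (helper2)

If `b` is a finite orthonormal family, every `L`-subspace `W ≤ span b` has an orthonormal basis.
-/
import Fermat.Agent.S18lib.Frame.Echelon

set_option autoImplicit false

noncomputable section

namespace Fermat.Agent.S18lib.Frame

open Module AlgebraicCurve

variable {L : Type*} [Field L] {A : ValuationSubring L}
variable {F : Type*} [Field F] [Algebra L F]
variable {Fk : Type*} [Field Fk] [Algebra (IsLocalRing.ResidueField A) Fk]
variable {D : RedDatum A F Fk}

local notation "k" => IsLocalRing.ResidueField A

/-- the coordinate map `c ↦ Σ c_i • b_i` -/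
def coordMap {ι : Type*} [Fintype ι] (b : ι → F) : (ι → L) →ₗ[L] F :=
  Fintype.linearCombination L b

theorem coordMap_apply {ι : Type*} [Fintype ι] (b : ι → F) (c : ι → L) :
    coordMap b c = ∑ i, algebraMap L F (c i) * b i := by
  simp [coordMap, Fintype.linearCombination_apply, Algebra.smul_def]

theorem exists_orthonormal_of_le_span {ι : Type*} [Fintype ι] {b : ι → F}
    (hb : D.IsOrthonormal b) (W : Submodule L F) (hW : W ≤ Submodule.span L (Set.range b)) :
    ∃ u : Fin (finrank L W) → F, (∀ j, u j ∈ W) ∧ D.IsOrthonormal u := by
  classical
  have hinj : Function.Injective (coordMap (L := L) b) := by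
    have hli := hb.linearIndependent
    refine (injective_iff_map_eq_zero _).2 fun c hc => ?_
    funext i
    refine Fintype.linearIndependent_iff.1 hli c ?_ i
    simpa [coordMap, Fintype.linearCombination_apply] using hc
  set U : Submodule L (ι → L) := W.comap (coordMap b) with hU
  -- `U ≃ W`
  have hrange : W ≤ LinearMap.range (coordMap (L := L) b) := by
    rw [coordMap, Fintype.range_linearCombination]; exact hW
  have hmap : U.map (coordMap b) = W := by
    rw [hU, Submodule.map_comap_eq, inf_eq_right.2 hrange]
  have hrank : finrank L U = finrank L W := by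
    rw [← hmap]
    exact (LinearEquiv.finrank_eq (Submodule.equivMapOfInjective _ hinj U))
  obtain ⟨e, heU, heind⟩ := exists_integral_basis A (finrank L W) U hrank
  · refine ⟨fun j => ∑ i, algebraMap L F ((e j i : A) : L) * b i, fun j => ?_, ?_, ?_⟩
    · have := heU j
      rw [hU, Submodule.mem_comap, coordMap_apply] at this
      exact this
    · intro j
      exact hb.sum_mem (e j)
    · -- independence of the reductions
      rw [Fintype.linearIndependent_iff]
      intro α hα j
      have h1 : ∀ j, D.redF (∑ i, algebraMap L F ((e j i : A) : L) * b i)
          = ∑ i, IsLocalRing.residue A (e j i) • D.redF (b i) := fun j => hb.redF_sum (e j)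
      simp only [h1, Finset.smul_sum, smul_smul] at hα
      rw [Finset.sum_comm] at hα
      simp only [← Finset.sum_smul] at hα
      have h2 := Fintype.linearIndependent_iff.1 hb.2 _ hα
      -- so Σ_j α_j • ē_j = 0
      have h3 : ∑ j, α j • (fun i => IsLocalRing.residue A (e j i)) = 0 := by
        funext i
        simpa [Finset.sum_apply] using h2 i
      exact Fintype.linearIndependent_iff.1 heind α h3 j

end Fermat.Agent.S18lib.Frame
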