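/-
S18lib / Frame / Family  (helper2)

**Frame (finite family version) ⇒ orthonormal bases.**  Same as `Frame/Main.lean` but with an
arbitrary finite family `θ : Fin n → F` instead of the powers of a single `θ`:
if every `f ∈ F` is `(Σ_i p_i(y) θ_i) / q(y)` and the reductions of `y^a θ_i` are `k`-linearly
independent, then every finite dimensional `L`-subspace of `F` has an orthonormal basis.
-/
import Fermat.Agent.S18lib.Frame.Saturated

set_option autoImplicit false

noncomputable section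

namespace Fermat.Agent.S18lib.Frame

open Module AlgebraicCurve Polynomial

variable {L : Type*} [Field L] {A : ValuationSubring L}
variable {F : Type*} [Field F] [Algebra L F]
variable {Fk : Type*} [Field Fk] [Algebra (IsLocalRing.ResidueField A) Fk]

local notation "k" => IsLocalRing.ResidueField A

/-- An *orthonormal frame* of a reduction datum: `F = L(y)[θ]`, `[F : L(y)] ≤ n`, and the reductions
of the monomials `y^a θ^i`, `i < n`, are linearly independent over `k`
(i.e. `ȳ` is transcendental and `[k(ȳ)(θ̄) : k(ȳ)] ≥ n`). -/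
structure IsFrameFamily (D : RedDatum A F Fk) (y : F) {n : ℕ} (θ : Fin n → F) : Prop where
  n_pos : 0 < n
  y_mem : y ∈ D.O
  θ_mem : ∀ i, θ i ∈ D.O
  exists_repr : ∀ f : F, ∃ (q : L[X]) (p : Fin n → L[X]), q ≠ 0 ∧
    f * aeval y q = ∑ i, aeval y (p i) * θ i
  red_indep : LinearIndependent k
    (fun m : ℕ × Fin n => D.redF y ^ m.1 * D.redF (θ m.2))

variable {D : RedDatum A F Fk} {y : F} {n : ℕ} {θ : Fin n → F}

/-- the monomials `y^a θ^i`, `a ≤ t`, `i < n` -/
def monomialsFam (y : F) {n : ℕ} (θ : Fin n → F) (t : ℕ) : Fin (t + 1) × Fin n → F :=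
  fun m => y ^ (m.1 : ℕ) * θ m.2

theorem IsFrameFamily.isOrthonormal_monomials (h : IsFrameFamily D y θ) (t : ℕ) :
    D.IsOrthonormal (monomialsFam y θ t) := by
  refine ⟨fun m => D.O.mul_mem _ _ (D.O.pow_mem h.y_mem _) (h.θ_mem _), ?_⟩
  have hinj : Function.Injective (fun m : Fin (t + 1) × Fin n => (((m.1 : ℕ), m.2) : ℕ × Fin n)) := by
    rintro ⟨a, i⟩ ⟨a', i'⟩ hh
    simp only [Prod.mk.injEq] at hh
    exact Prod.ext (Fin.ext hh.1) hh.2
  have hcomp := h.red_indep.comp _ hinj
  have heq : (fun m : Fin (t + 1) × Fin n => D.redF (monomialsFam y θ t m))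
      = (fun m : ℕ × Fin n => D.redF y ^ m.1 * D.redF (θ m.2)) ∘
        (fun m : Fin (t + 1) × Fin n => (((m.1 : ℕ), m.2) : ℕ × Fin n)) := by
    funext m
    simp only [monomialsFam, Function.comp_apply]
    rw [D.redF_mul (D.O.pow_mem h.y_mem _) (h.θ_mem _), D.redF_pow h.y_mem]
  rw [heq]
  exact hcomp

/-- the span of the monomials of `y`-degree `≤ t` -/
def VtFam (y : F) {n : ℕ} (θ : Fin n → F) (t : ℕ) : Submodule L F := Submodule.span L (Set.range (monomialsFam y θ t))

theorem monomial_mem_VtFam {t a : ℕ} (ha : a ≤ t) (i : Fin n) : y ^ a * θ i ∈ VtFam (L := L) y θ t :=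
  Submodule.subset_span ⟨(⟨a, Nat.lt_succ_of_le ha⟩, i), rfl⟩

theorem VtFam_mono {t t' : ℕ} (htt : t ≤ t') : VtFam (L := L) y θ t ≤ VtFam (L := L) y θ t' := by
  rw [VtFam, Submodule.span_le]
  rintro _ ⟨m, rfl⟩
  exact monomial_mem_VtFam (le_trans (Nat.le_of_lt_succ m.1.2) htt) m.2

theorem mul_y_mem_VtFam {t : ℕ} {f : F} (hf : f ∈ VtFam (L := L) y θ t) :
    f * y ∈ VtFam (L := L) y θ (t + 1) := by
  rw [VtFam] at hf
  induction hf using Submodule.span_induction with
  | mem f hf =>
    obtain ⟨m, rfl⟩ := hf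
    have : monomialsFam y θ t m * y = y ^ ((m.1 : ℕ) + 1) * θ m.2 := by
      simp only [monomialsFam]; ring
    rw [this]
    exact monomial_mem_VtFam (Nat.succ_le_succ (Nat.le_of_lt_succ m.1.2)) m.2
  | zero => rw [zero_mul]; exact Submodule.zero_mem _
  | add f g _ _ hf hg => rw [add_mul]; exact Submodule.add_mem _ hf hg
  | smul c f _ hf => rw [smul_mul_assoc]; exact Submodule.smul_mem _ _ hf

theorem mul_y_pow_mem_VtFam {t : ℕ} {f : F} (hf : f ∈ VtFam (L := L) y θ t) (a : ℕ) :
    f * y ^ a ∈ VtFam (L := L) y θ (t + a) := by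
  induction a with
  | zero => simpa using hf
  | succ a ih =>
    rw [pow_succ, ← mul_assoc, ← add_assoc]
    exact mul_y_mem_VtFam ih

theorem mul_aeval_mem_VtFam {t : ℕ} {f : F} (hf : f ∈ VtFam (L := L) y θ t) (q : L[X]) :
    f * aeval y q ∈ VtFam (L := L) y θ (t + q.natDegree) := by
  rw [aeval_eq_sum_range, Finset.mul_sum]
  refine Submodule.sum_mem _ fun a ha => ?_
  rw [mul_smul_comm]
  refine Submodule.smul_mem _ _ (VtFam_mono ?_ (mul_y_pow_mem_VtFam hf a))
  have := Finset.mem_range.1 ha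
  omega

theorem aeval_mul_pow_mem_VtFam (p : L[X]) (i : Fin n) :
    aeval y p * θ i ∈ VtFam (L := L) y θ p.natDegree := by
  rw [aeval_eq_sum_range, Finset.sum_mul]
  refine Submodule.sum_mem _ fun a ha => ?_
  rw [smul_mul_assoc]
  refine Submodule.smul_mem _ _ (monomial_mem_VtFam ?_ i)
  have := Finset.mem_range.1 ha
  omega

/-- every element of `F` is in some `Vt` after multiplication by a nonzero polynomial in `y` -/
theorem IsFrameFamily.exists_mul_mem_Vt (h : IsFrameFamily D y θ) (f : F) :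
    ∃ (q : L[X]) (t : ℕ), q ≠ 0 ∧ f * aeval y q ∈ VtFam (L := L) y θ t := by
  obtain ⟨q, p, hq, hf⟩ := h.exists_repr f
  refine ⟨q, Finset.univ.sup fun i => (p i).natDegree, hq, ?_⟩
  rw [hf]
  refine Submodule.sum_mem _ fun i _ => ?_
  exact VtFam_mono (Finset.le_sup (f := fun i => (p i).natDegree) (Finset.mem_univ i))
    (aeval_mul_pow_mem_VtFam (p i) i)

/-- common denominator for a finite family -/
theorem IsFrameFamily.exists_common (h : IsFrameFamily D y θ) {d : ℕ} (w : Fin d → F) :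
    ∃ (q : L[X]) (t : ℕ), q ≠ 0 ∧ ∀ j, w j * aeval y q ∈ VtFam (L := L) y θ t := by
  induction d with
  | zero => exact ⟨1, 0, one_ne_zero, fun j => j.elim0⟩
  | succ d ih =>
    obtain ⟨q, t, hq, hqt⟩ := ih (fun j => w j.succ)
    obtain ⟨q₀, t₀, hq₀, hqt₀⟩ := h.exists_mul_mem_Vt (w 0)
    refine ⟨q * q₀, max (t + q₀.natDegree) (t₀ + q.natDegree), mul_ne_zero hq hq₀, fun j => ?_⟩
    rw [map_mul]
    refine Fin.cases ?_ (fun j' => ?_) j
    · rw [mul_comm (aeval y q), ← mul_assoc]
      exact VtFam_mono (le_max_right _ _) (mul_aeval_mem_VtFam hqt₀ q)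
    · rw [← mul_assoc]
      exact VtFam_mono (le_max_left _ _) (mul_aeval_mem_VtFam (hqt j') q₀)

/-- a nonzero polynomial in `y` is a nonzero constant times a unit of `O` -/
theorem IsFrameFamily.exists_aeval_eq (h : IsFrameFamily D y θ) {q : L[X]} (hq : q ≠ 0) :
    ∃ (c : L) (u : F), c ≠ 0 ∧ D.redF u ≠ 0 ∧ aeval y q = algebraMap L F c * u := by
  classical
  set t := q.natDegree with ht
  have hb := h.isOrthonormal_monomials t
  let i0 : Fin n := ⟨0, h.n_pos⟩
  -- `θ i0` is a unit of `O`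
  have hθ0 : D.redF (θ i0) ≠ 0 := by
    have := h.red_indep.ne_zero ((0 : ℕ), i0)
    simpa using this
  have hθ0' : θ i0 ≠ 0 := by
    intro h0
    rw [h0] at hθ0
    exact hθ0 D.redF_zero
  -- coefficients of q as a coefficient vector on the monomials
  let c : Fin (t + 1) × Fin n → L := fun m => if m.2 = i0 then q.coeff (m.1 : ℕ) else 0
  have hc : c ≠ 0 := by
    intro h0
    have := congrFun h0 (⟨t, Nat.lt_succ_self t⟩, i0)
    simp only [c, if_true, Pi.zero_apply] at this
    exact hq (leadingCoeff_eq_zero.1 this)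
  obtain ⟨m₀, hm₀, -, u, hu, hsum⟩ := hb.exists_eq_mul c hc
  have hu' : D.redF (u * (θ i0)⁻¹) ≠ 0 := by
    rw [D.redF_mul (D.mem_of_redF_ne_zero hu) (D.inv_mem_of_redF_ne_zero hθ0), D.redF_inv hθ0]
    exact mul_ne_zero hu (inv_ne_zero hθ0)
  refine ⟨c m₀, u * (θ i0)⁻¹, hm₀, hu', ?_⟩
  rw [← mul_assoc, ← hsum, eq_mul_inv_iff_mul_eq₀ hθ0', aeval_eq_sum_range, Fintype.sum_prod_type,
    Finset.sum_mul]
  rw [Finset.sum_range]
  refine Finset.sum_congr rfl fun a _ => ?_
  rw [Finset.sum_eq_single i0]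
  · simp [c, monomialsFam, i0, Algebra.smul_def, mul_assoc]
  · intro i _ hi
    simp [c, hi]
  · intro hi; exact absurd (Finset.mem_univ _) hi

/-- **Frame ⇒ orthonormal bases.** -/
theorem IsFrameFamily.hasOrthonormalBases (h : IsFrameFamily D y θ) : D.HasOrthonormalBases := by
  classical
  intro W hWfin
  set d := finrank L W with hd
  -- a basis of W
  let w := Module.finBasis L W
  obtain ⟨q, t, hq, hqt⟩ := h.exists_common (fun j => (w j : F))
  obtain ⟨c, u, hc, hu, hqu⟩ := h.exists_aeval_eq hq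
  have hu0 : u ≠ 0 := by
    rintro rfl
    exact hu D.redF_zero
  have huO : u ∈ D.O := D.mem_of_redF_ne_zero hu
  have huiO : u⁻¹ ∈ D.O := D.inv_mem_of_redF_ne_zero hu
  -- multiplication by u
  let μ : F →ₗ[L] F := LinearMap.mulRight L u
  have hμinj : Function.Injective μ := fun a b hab => by
    simpa [μ, hu0] using hab
  set W' : Submodule L F := W.map μ with hW'
  have hrank : finrank L W' = d := by
    rw [hW', hd]
    exact (LinearEquiv.finrank_eq (Submodule.equivMapOfInjective μ hμinj W)).symm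
  have hW'le : W' ≤ Submodule.span L (Set.range (monomialsFam y θ t)) := by
    rw [hW', Submodule.map_le_iff_le_comap]
    intro x hx
    rw [Submodule.mem_comap]
    -- x is a combination of the basis
    have hxrepr : x = ∑ j, (w.repr ⟨x, hx⟩ j) • (w j : F) := by
      have h1 := w.sum_repr ⟨x, hx⟩
      have h2 : ((∑ j, w.repr ⟨x, hx⟩ j • w j : W) : F) = x := congrArg (Subtype.val) h1
      refine h2.symm.trans ?_
      rw [Submodule.coe_sum]
      simp only [Submodule.coe_smul]
    have hcF : algebraMap L F c ≠ 0 := (_root_.map_ne_zero _).2 hc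
    have hueq : u = algebraMap L F c⁻¹ * aeval y q := by
      rw [hqu, map_inv₀, ← mul_assoc, inv_mul_cancel₀ hcF, one_mul]
    show x * u ∈ _
    rw [hxrepr, Finset.sum_mul]
    refine Submodule.sum_mem _ fun j _ => ?_
    rw [smul_mul_assoc]
    refine Submodule.smul_mem _ _ ?_
    rw [hueq, mul_left_comm, ← Algebra.smul_def]
    exact Submodule.smul_mem _ _ (hqt j)
  obtain ⟨u', hu'W, hu'orth⟩ := exists_orthonormal_of_le_span (h.isOrthonormal_monomials t) W' hW'le
  -- transport back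
  refine ⟨fun j => u' (Fin.cast hrank.symm j) * u⁻¹, fun j => ?_, fun j => ?_, ?_⟩
  · obtain ⟨x, hx, hxu⟩ := hu'W (Fin.cast hrank.symm j)
    have : u' (Fin.cast hrank.symm j) * u⁻¹ = x := by
      rw [← hxu]
      show x * u * u⁻¹ = x
      rw [mul_assoc, mul_inv_cancel₀ hu0, mul_one]
    show u' (Fin.cast hrank.symm j) * u⁻¹ ∈ W
    rw [this]; exact hx
  · exact D.O.mul_mem _ _ (hu'orth.1 _) huiO
  · have h1 : (fun j : Fin d => D.redF (u' (Fin.cast hrank.symm j) * u⁻¹))
        = fun j => (D.redF u)⁻¹ • D.redF (u' (Fin.cast hrank.symm j)) := by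
      funext j
      rw [D.redF_mul (hu'orth.1 _) huiO, D.redF_inv hu, smul_eq_mul, mul_comm]
    rw [h1]
    have h2 : LinearIndependent k (fun j : Fin d => D.redF (u' (Fin.cast hrank.symm j))) :=
      hu'orth.2.comp _ (Fin.cast_injective _)
    have hne : (D.redF u)⁻¹ ≠ 0 := inv_ne_zero hu
    rw [Fintype.linearIndependent_iff] at h2 ⊢
    intro α hα j
    refine h2 α ?_ j
    have : (D.redF u)⁻¹ * ∑ j, α j • D.redF (u' (Fin.cast hrank.symm j)) = 0 := by
      rw [Finset.mul_sum, ← hα]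
      refine Finset.sum_congr rfl fun j _ => ?_
      rw [smul_eq_mul, mul_smul_comm]
    exact (mul_eq_zero.1 this).resolve_left hne

end Fermat.Agent.S18lib.Frame
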